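import Mathlib
import Fermat.Prelude.Def_GaloisRep_DeformationCondition
import Fermat.Agent.S53.MatRep
import Fermat.Agent.S53.FibreSq
import Fermat.Agent.S53.TestAlg
import Fermat.Agent.S53.Universal
import Fermat.Agent.S53.UnivRep

set_option autoImplicit false

/-!
# Admissible ideals of the polynomial ring on matrix entries: basic objects

`Pol 𝒪 = 𝒪[X (g, i, j)]`, the evaluation `ev0` at the residual matrices, its kernel `m0`
(a maximal ideal with residue field `k`), tautological matrices over quotients of `Pol 𝒪`.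
-/

namespace Fermat.Agent.S53.Int.Adm

open IsLocalRing GaloisRep MvPolynomial
open Fermat.Agent.S53 Fermat.Agent.S53.MatRep

local notation "Γℚ" => (AlgebraicClosure ℚ ≃ₐ[ℚ] AlgebraicClosure ℚ)

/-- The polynomial ring on the matrix entries. -/
abbrev Pol (𝒪 : Type) [CommRing 𝒪] : Type := MvPolynomial (Γℚ × Fin 2 × Fin 2) 𝒪

section Basic

variable {𝒪 : Type} [CommRing 𝒪] [IsLocalRing 𝒪]
variable (rt : Γℚ → Matrix (Fin 2) (Fin 2) 𝒪)

/-- evaluation of polynomials at the residual matrices. -/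
noncomputable def ev0 : Pol 𝒪 →ₐ[𝒪] ResidueField 𝒪 :=
  MvPolynomial.aeval (fun x : Γℚ × Fin 2 × Fin 2 => residue 𝒪 (rt x.1 x.2.1 x.2.2))

@[simp] theorem ev0_X (g : Γℚ) (i j : Fin 2) :
    ev0 rt (X (g, i, j)) = residue 𝒪 (rt g i j) := by
  simp [ev0]

@[simp] theorem ev0_C (c : 𝒪) : ev0 rt (C c) = residue 𝒪 c := by
  simp [ev0]

theorem ev0_surjective : Function.Surjective (ev0 rt) := by
  intro x
  obtain ⟨c, rfl⟩ := IsLocalRing.residue_surjective x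
  exact ⟨C c, ev0_C rt c⟩

/-- the maximal ideal of `Pol 𝒪` attached to the residual matrices. -/
noncomputable def m0 : Ideal (Pol 𝒪) := RingHom.ker (ev0 rt : Pol 𝒪 →+* ResidueField 𝒪)

theorem mem_m0 (p : Pol 𝒪) : p ∈ m0 rt ↔ ev0 rt p = 0 := Iff.rfl

instance m0_isMaximal : (m0 rt).IsMaximal :=
  RingHom.ker_isMaximal_of_surjective _ (ev0_surjective rt)

theorem X_sub_C_mem_m0 (g : Γℚ) (i j : Fin 2) :
    (X (g, i, j) - C (rt g i j) : Pol 𝒪) ∈ m0 rt := by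
  rw [mem_m0, map_sub, ev0_X, ev0_C, sub_self]

theorem hres0 :
    Function.Surjective ((Ideal.Quotient.mk (m0 rt)).comp (algebraMap 𝒪 (Pol 𝒪))) := by
  intro x
  obtain ⟨p, rfl⟩ := Ideal.Quotient.mk_surjective x
  obtain ⟨c, hc⟩ := IsLocalRing.residue_surjective (ev0 rt p)
  refine ⟨c, ?_⟩
  rw [RingHom.comp_apply, Ideal.Quotient.eq, mem_m0, map_sub, MvPolynomial.algebraMap_eq,
    ev0_C, hc, sub_self]

end Basic

section Rel

variable {𝒪 : Type} [CommRing 𝒪]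
variable (rt : Γℚ → Matrix (Fin 2) (Fin 2) 𝒪) (g0 g1 : Γℚ) (i0 : Fin 2)

/-- The relations an ideal `K` of `Pol 𝒪` must contain for the tautological matrices over
`Pol 𝒪 ⧸ K` to form a multiplicative, finite-level, rigid family. -/
structure Rel (K : Ideal (Pol 𝒪)) : Prop where
  one : ∀ i j, (X ((1 : Γℚ), i, j) - C ((1 : Matrix (Fin 2) (Fin 2) 𝒪) i j) : Pol 𝒪) ∈ K
  mul : ∀ (g h : Γℚ) i j, (X (g * h, i, j) - ∑ k, X (g, i, k) * X (h, k, j) : Pol 𝒪) ∈ K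
  level : ∃ L : IntermediateField ℚ (AlgebraicClosure ℚ), FiniteDimensional ℚ L ∧
    ∀ σ : Γℚ, (∀ x ∈ L, σ x = x) → ∀ i j,
      (X (σ, i, j) - C ((1 : Matrix (Fin 2) (Fin 2) 𝒪) i j) : Pol 𝒪) ∈ K
  h00 : (X (g0, 0, 0) : Pol 𝒪) ∈ K
  h10 : (X (g0, 1, 0) - 1 : Pol 𝒪) ∈ K
  hβ : (X (g1, i0, 0) - C (rt g1 i0 0) : Pol 𝒪) ∈ K

variable {rt g0 g1 i0}

theorem Rel.mono {K K' : Ideal (Pol 𝒪)} (h : Rel rt g0 g1 i0 K) (hKK' : K ≤ K') :
    Rel rt g0 g1 i0 K' where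
  one i j := hKK' (h.one i j)
  mul g h' i j := hKK' (h.mul g h' i j)
  level := by
    obtain ⟨L, hL, hσ⟩ := h.level
    exact ⟨L, hL, fun σ hσL i j => hKK' (hσ σ hσL i j)⟩
  h00 := hKK' h.h00
  h10 := hKK' h.h10
  hβ := hKK' h.hβ

theorem Rel.inf {K₁ K₂ : Ideal (Pol 𝒪)} (h₁ : Rel rt g0 g1 i0 K₁) (h₂ : Rel rt g0 g1 i0 K₂) :
    Rel rt g0 g1 i0 (K₁ ⊓ K₂) where
  one i j := ⟨h₁.one i j, h₂.one i j⟩
  mul g h i j := ⟨h₁.mul g h i j, h₂.mul g h i j⟩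
  level := by
    obtain ⟨L₁, hL₁, hσ₁⟩ := h₁.level
    obtain ⟨L₂, hL₂, hσ₂⟩ := h₂.level
    refine ⟨L₁ ⊔ L₂, IntermediateField.finiteDimensional_sup L₁ L₂, fun σ hσ i j => ?_⟩
    exact ⟨hσ₁ σ (fun x hx => hσ x ((le_sup_left : L₁ ≤ L₁ ⊔ L₂) hx)) i j,
      hσ₂ σ (fun x hx => hσ x ((le_sup_right : L₂ ≤ L₁ ⊔ L₂) hx)) i j⟩
  h00 := ⟨h₁.h00, h₂.h00⟩
  h10 := ⟨h₁.h10, h₂.h10⟩
  hβ := ⟨h₁.hβ, h₂.hβ⟩

/-- the relations hold in the kernel of the evaluation at a multiplicative finite-level rigid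
family of matrices. -/
theorem Rel.of_ker {A : Type} [CommRing A] [Algebra 𝒪 A] (f : Pol 𝒪 →ₐ[𝒪] A)
    (r : Γℚ →* Matrix (Fin 2) (Fin 2) A) (hf : ∀ g i j, f (X (g, i, j)) = r g i j)
    (hfac : GaloisFactorsThroughFiniteLevel r)
    (h00 : r g0 0 0 = 0) (h10 : r g0 1 0 = 1) (hβ : r g1 i0 0 = algebraMap 𝒪 A (rt g1 i0 0)) :
    Rel rt g0 g1 i0 (RingHom.ker (f : Pol 𝒪 →+* A)) where
  one i j := by
    rw [RingHom.mem_ker, RingHom.coe_coe, map_sub, hf, map_one, UnivRep.map_C_one_apply, sub_self]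
  mul g h i j := by
    rw [RingHom.mem_ker, RingHom.coe_coe, map_sub, hf, map_mul, Matrix.mul_apply, map_sum,
      sub_eq_zero]
    refine Finset.sum_congr rfl fun k _ => ?_
    rw [map_mul, hf, hf]
  level := by
    obtain ⟨L, hL, hσ⟩ := hfac
    refine ⟨L, hL, fun σ hσL i j => ?_⟩
    rw [RingHom.mem_ker, RingHom.coe_coe, map_sub, hf, hσ σ hσL, UnivRep.map_C_one_apply,
      sub_self]
  h00 := by rw [RingHom.mem_ker, RingHom.coe_coe, hf, h00]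
  h10 := by rw [RingHom.mem_ker, RingHom.coe_coe, map_sub, hf, h10, map_one, sub_self]
  hβ := by
    rw [RingHom.mem_ker, RingHom.coe_coe, map_sub, hf, hβ, ← MvPolynomial.algebraMap_eq,
      AlgHom.commutes, sub_self]

/-- the tautological matrices over `Pol 𝒪 ⧸ K`. -/
noncomputable def tautHom (K : Ideal (Pol 𝒪)) (h : Rel rt g0 g1 i0 K) :
    Γℚ →* Matrix (Fin 2) (Fin 2) (Pol 𝒪 ⧸ K) where
  toFun g := Matrix.of fun i j => Ideal.Quotient.mk K (X (g, i, j))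
  map_one' := by
    ext i j
    rw [Matrix.of_apply, ← UnivRep.map_C_one_apply (Ideal.Quotient.mkₐ 𝒪 K) i j,
      Ideal.Quotient.mkₐ_eq_mk, Ideal.Quotient.eq]
    exact h.one i j
  map_mul' g g' := by
    ext i j
    rw [Matrix.mul_apply, Matrix.of_apply]
    have h1 := h.mul g g' i j
    rw [← Ideal.Quotient.eq, map_sum] at h1
    rw [h1]
    refine Finset.sum_congr rfl fun k _ => ?_
    rw [map_mul, Matrix.of_apply, Matrix.of_apply]

@[simp] theorem tautHom_apply (K : Ideal (Pol 𝒪)) (h : Rel rt g0 g1 i0 K) (g : Γℚ) (i j : Fin 2) :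
    tautHom K h g i j = Ideal.Quotient.mk K (X (g, i, j)) := rfl

theorem tautHom_factors (K : Ideal (Pol 𝒪)) (h : Rel rt g0 g1 i0 K) :
    GaloisFactorsThroughFiniteLevel (tautHom K h) := by
  obtain ⟨L, hL, hσ⟩ := h.level
  refine ⟨L, hL, fun σ hσL => ?_⟩
  ext i j
  rw [tautHom_apply, ← UnivRep.map_C_one_apply (Ideal.Quotient.mkₐ 𝒪 K) i j,
    Ideal.Quotient.mkₐ_eq_mk, Ideal.Quotient.eq]
  exact hσ σ hσL i j

theorem tautHom_h00 (K : Ideal (Pol 𝒪)) (h : Rel rt g0 g1 i0 K) : tautHom K h g0 0 0 = 0 := by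
  rw [tautHom_apply]
  exact Ideal.Quotient.eq_zero_iff_mem.2 h.h00

theorem tautHom_h10 (K : Ideal (Pol 𝒪)) (h : Rel rt g0 g1 i0 K) : tautHom K h g0 1 0 = 1 := by
  rw [tautHom_apply, ← map_one (Ideal.Quotient.mk K), Ideal.Quotient.eq]
  exact h.h10

theorem tautHom_hβ (K : Ideal (Pol 𝒪)) (h : Rel rt g0 g1 i0 K) :
    tautHom K h g1 i0 0 = algebraMap 𝒪 (Pol 𝒪 ⧸ K) (rt g1 i0 0) := by
  have hC : algebraMap 𝒪 (Pol 𝒪 ⧸ K) (rt g1 i0 0) = Ideal.Quotient.mk K (C (rt g1 i0 0)) := rfl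
  rw [tautHom_apply, hC, Ideal.Quotient.eq]
  exact h.hβ

/-- the tautological matrices generate the quotient. -/
theorem adjoin_tautHom (K : Ideal (Pol 𝒪)) (h : Rel rt g0 g1 i0 K) :
    Algebra.adjoin 𝒪 (Set.range fun x : Γℚ × Fin 2 × Fin 2 => tautHom K h x.1 x.2.1 x.2.2) = ⊤ := by
  have hrange : (Set.range fun x : Γℚ × Fin 2 × Fin 2 => tautHom K h x.1 x.2.1 x.2.2) =
      (Ideal.Quotient.mkₐ 𝒪 K) '' (Set.range (X : Γℚ × Fin 2 × Fin 2 → Pol 𝒪)) := by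
    rw [← Set.range_comp]
    rfl
  rw [hrange, Algebra.adjoin_image, MvPolynomial.adjoin_range_X, Algebra.map_top,
    AlgHom.range_eq_top]
  exact Ideal.Quotient.mkₐ_surjective 𝒪 K

/-- a multiplicative family over `Pol 𝒪 ⧸ K` with the tautological entries is `tautHom`. -/
theorem eq_tautHom (K : Ideal (Pol 𝒪)) (h : Rel rt g0 g1 i0 K)
    (r : Γℚ →* Matrix (Fin 2) (Fin 2) (Pol 𝒪 ⧸ K))
    (hr : ∀ g i j, r g i j = Ideal.Quotient.mk K (X (g, i, j))) : r = tautHom K h := by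
  ext g i j
  rw [hr, tautHom_apply]

end Rel

end Fermat.Agent.S53.Int.Adm
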