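import Mathlib
import Fermat.Prelude.Def_GaloisRep_DeformationCondition
import Fermat.Agent.S53.MatRep
import Fermat.Agent.S53.FibreSq
import Fermat.Agent.S53.TestAlg
import Fermat.Agent.S53.Universal
import Fermat.Agent.S53.UnivRep
import Fermat.Agent.S53.LeastAdm
import Fermat.Agent.S53.TangentGlue
import Fermat.Agent.S53.Int.AdmBase

set_option autoImplicit false
set_option linter.style.haveILetI false
set_option linter.dupNamespace false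
set_option linter.unusedSectionVars false

/-!
# Admissible ideals (chunk C of the rigid-lift route for the universal deformation ring)

`Adm n K`: `m0 ^ n ≤ K ≤ m0`, `Pol ⧸ K` finite, and the tautological matrices over `Pol ⧸ K`
form a rigid lift of type `𝒟`.  We prove: kernels of evaluations at rigid `𝒟`-lifts are
admissible, admissible ideals are closed under `⊓` and under enlarging, their index is bounded,
and there is a least admissible ideal `J n` of each level `n ≥ 1`.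
-/

namespace Fermat.Agent.S53.Int.Adm

open IsLocalRing GaloisRep MvPolynomial
open Fermat.Agent.S53 Fermat.Agent.S53.MatRep

local notation "Γℚ" => (AlgebraicClosure ℚ ≃ₐ[ℚ] AlgebraicClosure ℚ)

variable {𝒪 : Type} [CommRing 𝒪] [IsLocalRing 𝒪]
variable (𝒟 : ∀ ⦃A : Type⦄ [CommRing A] [IsLocalRing A] [Algebra 𝒪 A], GaloisRepAdic A → Prop)
variable (rt : Γℚ → Matrix (Fin 2) (Fin 2) 𝒪) (g0 g1 : Γℚ) (i0 : Fin 2)

/-- admissible ideals of level `n`. -/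
def Adm (n : ℕ) (K : Ideal (Pol 𝒪)) : Prop :=
  m0 rt ^ n ≤ K ∧ K ≤ m0 rt ∧ Finite (Pol 𝒪 ⧸ K) ∧
    ∃ (hrel : Rel rt g0 g1 i0 K) (_ : IsLocalRing (Pol 𝒪 ⧸ K))
      (hr : IsContMat (tautHom K hrel)), 𝒟 (ofMat (tautHom K hrel) hr)

variable {𝒟 rt g0 g1 i0}

section Quot

variable {n : ℕ} {K : Ideal (Pol 𝒪)}

theorem isLocalRing_quot (h1 : m0 rt ^ n ≤ K) (h2 : K ≤ m0 rt) : IsLocalRing (Pol 𝒪 ⧸ K) :=
  TestAlg.isLocalRing_quot_of_pow_le (m0 rt) K n h1 h2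

theorem isArtinianTestAlgebra_quot (h1 : m0 rt ^ n ≤ K) (h2 : K ≤ m0 rt)
    [IsLocalRing (Pol 𝒪 ⧸ K)] [Finite (Pol 𝒪 ⧸ K)] : IsArtinianTestAlgebra 𝒪 (Pol 𝒪 ⧸ K) :=
  TestAlg.isArtinianTestAlgebra_quot_of_pow_le 𝒪 (m0 rt) K n h1 h2 (hres0 rt)

theorem maximalIdeal_quot_pow (h1 : m0 rt ^ n ≤ K) (h2 : K ≤ m0 rt)
    [IsLocalRing (Pol 𝒪 ⧸ K)] : maximalIdeal (Pol 𝒪 ⧸ K) ^ n = ⊥ :=
  TestAlg.maximalIdeal_quot_pow_eq_bot_of_pow_le (m0 rt) K n h1 h2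

theorem tautHom_congr (h1 : m0 rt ^ n ≤ K) (h2 : K ≤ m0 rt) [IsLocalRing (Pol 𝒪 ⧸ K)]
    (hrel : Rel rt g0 g1 i0 K) (σ : Γℚ) (i j : Fin 2) :
    tautHom K hrel σ i j - algebraMap 𝒪 (Pol 𝒪 ⧸ K) (rt σ i j) ∈ maximalIdeal (Pol 𝒪 ⧸ K) := by
  have hC : algebraMap 𝒪 (Pol 𝒪 ⧸ K) (rt σ i j) = Ideal.Quotient.mk K (C (rt σ i j)) := rfl
  rw [tautHom_apply, hC, ← map_sub, TestAlg.mk_mem_maximalIdeal_iff (m0 rt) K n h1 h2]
  exact X_sub_C_mem_m0 rt σ i j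

theorem isContMat_tautHom [IsLocalRing (Pol 𝒪 ⧸ K)] (hrel : Rel rt g0 g1 i0 K) :
    IsContMat (tautHom K hrel) :=
  isContMat_of_factors (tautHom_factors K hrel)

end Quot

/-- unpacking an admissible ideal. -/
theorem Adm.data {n : ℕ} {K : Ideal (Pol 𝒪)} (hK : Adm 𝒟 rt g0 g1 i0 n K) :
    ∃ (_ : IsLocalRing (Pol 𝒪 ⧸ K)) (r : Γℚ →* Matrix (Fin 2) (Fin 2) (Pol 𝒪 ⧸ K))
      (hr : IsContMat r), Finite (Pol 𝒪 ⧸ K) ∧ IsArtinianTestAlgebra 𝒪 (Pol 𝒪 ⧸ K) ∧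
      maximalIdeal (Pol 𝒪 ⧸ K) ^ n = ⊥ ∧
      (∀ g i j, r g i j = Ideal.Quotient.mk K (X (g, i, j))) ∧
      (∀ σ i j, r σ i j - algebraMap 𝒪 (Pol 𝒪 ⧸ K) (rt σ i j) ∈ maximalIdeal (Pol 𝒪 ⧸ K)) ∧
      r g0 0 0 = 0 ∧ r g0 1 0 = 1 ∧ r g1 i0 0 = algebraMap 𝒪 (Pol 𝒪 ⧸ K) (rt g1 i0 0) ∧
      𝒟 (ofMat r hr) := by
  obtain ⟨h1, h2, hfin, hrel, hloc, hr, hD⟩ := hK
  exact ⟨hloc, tautHom K hrel, hr, hfin, isArtinianTestAlgebra_quot h1 h2,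
    maximalIdeal_quot_pow h1 h2, fun g i j => rfl, tautHom_congr h1 h2 hrel,
    tautHom_h00 K hrel, tautHom_h10 K hrel, tautHom_hβ K hrel, hD⟩

theorem Adm.pow_le {n : ℕ} {K : Ideal (Pol 𝒪)} (hK : Adm 𝒟 rt g0 g1 i0 n K) : m0 rt ^ n ≤ K :=
  hK.1

theorem Adm.le {n : ℕ} {K : Ideal (Pol 𝒪)} (hK : Adm 𝒟 rt g0 g1 i0 n K) : K ≤ m0 rt :=
  hK.2.1

theorem Adm.finite {n : ℕ} {K : Ideal (Pol 𝒪)} (hK : Adm 𝒟 rt g0 g1 i0 n K) :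
    Finite (Pol 𝒪 ⧸ K) :=
  hK.2.2.1

/-- (h4) admissible of level `n` implies admissible of level `n + 1`. -/
theorem Adm.succ {n : ℕ} {K : Ideal (Pol 𝒪)} (hK : Adm 𝒟 rt g0 g1 i0 n K) :
    Adm 𝒟 rt g0 g1 i0 (n + 1) K :=
  ⟨(Ideal.pow_le_pow_right (Nat.le_succ n)).trans hK.1, hK.2.1, hK.2.2.1, hK.2.2.2⟩

section Ker

variable [Finite (ResidueField 𝒪)]

/-- the preimage of the maximal ideal under the evaluation at a lift of the residual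
matrices is `m0`. -/
theorem evalHom_mem_maximalIdeal_iff {A : Type} [CommRing A] [IsLocalRing A] [Algebra 𝒪 A]
    (hloc : IsLocalHom (algebraMap 𝒪 A))
    (r : Γℚ → Matrix (Fin 2) (Fin 2) A)
    (hcongr : ∀ σ i j, r σ i j - algebraMap 𝒪 A (rt σ i j) ∈ maximalIdeal A) (p : Pol 𝒪) :
    Universal.evalHom 𝒪 r p ∈ maximalIdeal A ↔ p ∈ m0 rt := by
  haveI := hloc
  have hcomp : (residue A).comp (Universal.evalHom 𝒪 r : Pol 𝒪 →+* A) =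
      (ResidueField.map (algebraMap 𝒪 A)).comp (ev0 rt : Pol 𝒪 →+* ResidueField 𝒪) := by
    refine MvPolynomial.ringHom_ext (fun c => ?_) (fun x => ?_)
    · rw [RingHom.comp_apply, RingHom.comp_apply, RingHom.coe_coe, RingHom.coe_coe, ev0_C,
        ← MvPolynomial.algebraMap_eq, AlgHom.commutes, ResidueField.map_residue]
    · obtain ⟨g, i, j⟩ := x
      rw [RingHom.comp_apply, RingHom.comp_apply, RingHom.coe_coe, RingHom.coe_coe, ev0_X,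
        Universal.evalHom_X, ResidueField.map_residue, ← sub_eq_zero, ← map_sub,
        IsLocalRing.residue_eq_zero_iff]
      exact hcongr g i j
  have h1 := congrArg (fun φ : Pol 𝒪 →+* ResidueField A => φ p) hcomp
  simp only [RingHom.comp_apply, RingHom.coe_coe] at h1
  rw [← IsLocalRing.residue_eq_zero_iff, h1, mem_m0,
    map_eq_zero_iff _ (RingHom.injective (ResidueField.map (algebraMap 𝒪 A)))]

/-- (C2) the kernel of the evaluation at a rigid lift of type `𝒟` over a test algebra with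
`𝔪 ^ n = 0` is admissible of level `n`. -/
theorem adm_ker (h𝒟 : IsDeformationCondition 𝒪 𝒟)
    (A : Type) [CommRing A] [IsLocalRing A] [Algebra 𝒪 A] (hA : IsArtinianTestAlgebra 𝒪 A)
    (n : ℕ) (hn : maximalIdeal A ^ n = ⊥)
    (r : Γℚ →* Matrix (Fin 2) (Fin 2) A) (hr : IsContMat r)
    (hcongr : ∀ σ i j, r σ i j - algebraMap 𝒪 A (rt σ i j) ∈ maximalIdeal A)
    (h00 : r g0 0 0 = 0) (h10 : r g0 1 0 = 1) (hβ : r g1 i0 0 = algebraMap 𝒪 A (rt g1 i0 0))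
    (hD : 𝒟 (ofMat r hr)) :
    Adm 𝒟 rt g0 g1 i0 n (RingHom.ker (Universal.evalHom 𝒪 (⇑r) : Pol 𝒪 →+* A)) := by
  classical
  haveI : Finite A := FibreSq.finite_of_isArtinianTestAlgebra hA
  set f : Pol 𝒪 →ₐ[𝒪] A := Universal.evalHom 𝒪 (⇑r) with hf
  have hfX : ∀ g i j, f (X (g, i, j)) = r g i j := fun g i j => Universal.evalHom_X _ g i j
  set K : Ideal (Pol 𝒪) := RingHom.ker (f : Pol 𝒪 →+* A) with hK
  have hfac : GaloisFactorsThroughFiniteLevel r := factors_of_isContMat_of_pow_eq_bot hr hn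
  have hrel : Rel rt g0 g1 i0 K := Rel.of_ker f r hfX hfac h00 h10 hβ
  let ι : Pol 𝒪 ⧸ K →ₐ[𝒪] A := Ideal.kerLiftAlg f
  have hι : Function.Injective ι := Ideal.kerLiftAlg_injective f
  have hιmk : ∀ p, ι (Ideal.Quotient.mk K p) = f p := fun p => Ideal.kerLiftAlg_mk f p
  haveI : IsLocalRing (Pol 𝒪 ⧸ K) := FibreSq.isLocalRing_of_injective hA ι hι
  have hιloc : IsLocalHom (ι : Pol 𝒪 ⧸ K →+* A) := FibreSq.isLocalHom_of_injective hA ι hι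
  haveI : Finite (Pol 𝒪 ⧸ K) := Finite.of_injective ι hι
  have hP : IsArtinianTestAlgebra 𝒪 (Pol 𝒪 ⧸ K) :=
    FibreSq.isArtinianTestAlgebra_of_injective hA ι hι
  have hcomap : ∀ p : Pol 𝒪, f p ∈ maximalIdeal A ↔ p ∈ m0 rt :=
    evalHom_mem_maximalIdeal_iff hA.isLocalHom (⇑r) hcongr
  have hKle : K ≤ m0 rt := by
    intro p hp
    rw [← hcomap p, show f p = 0 from hp]
    exact Ideal.zero_mem _
  have hpow : m0 rt ^ n ≤ K := by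
    intro p hp
    have h1 : (m0 rt ^ n).map (f : Pol 𝒪 →+* A) ≤ maximalIdeal A ^ n := by
      rw [Ideal.map_pow]
      exact Ideal.pow_right_mono (Ideal.map_le_iff_le_comap.2 fun q hq =>
        Ideal.mem_comap.2 ((hcomap q).2 hq)) n
    have h2 := h1 (Ideal.mem_map_of_mem _ hp)
    rw [hn] at h2
    exact h2
  have hmap : mapMat (ι : Pol 𝒪 ⧸ K →+* A) (tautHom K hrel) = r := by
    ext σ i j
    rw [mapMat_apply, tautHom_apply]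
    exact (hιmk _).trans (hfX σ i j)
  have hr' : IsContMat (tautHom K hrel) := isContMat_tautHom hrel
  refine ⟨hpow, hKle, inferInstance, hrel, inferInstance, hr', ?_⟩
  have e := baseChangeAlong_ofMat_isEquiv (ι : Pol 𝒪 ⧸ K →+* A) hιloc (tautHom K hrel) hr'
  rw [ofMat_congr hmap (hr'.map _ hιloc) hr] at e
  exact h𝒟.of_baseChangeAlong_injective hP hA ι hιloc hι
    (h𝒟.of_isEquiv hA (isEquiv_symm e) hD)

/-- admissible ideals are closed under enlarging (inside `m0`). -/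
theorem Adm.mono (h𝒟 : IsDeformationCondition 𝒪 𝒟) {n m : ℕ} {K K' : Ideal (Pol 𝒪)}
    (hK : Adm 𝒟 rt g0 g1 i0 n K) (hKK' : K ≤ K') (hm : m0 rt ^ m ≤ K') (hK' : K' ≤ m0 rt) :
    Adm 𝒟 rt g0 g1 i0 m K' := by
  obtain ⟨h1, h2, hfin, hrel, hloc, hr, hD⟩ := hK
  haveI := hfin
  haveI := hloc
  haveI : Finite (Pol 𝒪 ⧸ K') :=
    Finite.of_surjective (Ideal.Quotient.factor hKK') (Ideal.Quotient.factor_surjective hKK')
  haveI : IsLocalRing (Pol 𝒪 ⧸ K') := isLocalRing_quot hm hK'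
  have hP : IsArtinianTestAlgebra 𝒪 (Pol 𝒪 ⧸ K) := isArtinianTestAlgebra_quot h1 h2
  have hP' : IsArtinianTestAlgebra 𝒪 (Pol 𝒪 ⧸ K') := isArtinianTestAlgebra_quot hm hK'
  let φ : Pol 𝒪 ⧸ K →ₐ[𝒪] Pol 𝒪 ⧸ K' := Ideal.Quotient.factorₐ 𝒪 hKK'
  have hφ : IsLocalHom (φ : Pol 𝒪 ⧸ K →+* Pol 𝒪 ⧸ K') := FibreSq.isLocalHom_factorₐ hKK'
  have hrel' : Rel rt g0 g1 i0 K' := hrel.mono hKK'
  have hr' : IsContMat (tautHom K' hrel') := isContMat_tautHom hrel'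
  have hmap : mapMat (φ : Pol 𝒪 ⧸ K →+* Pol 𝒪 ⧸ K') (tautHom K hrel) = tautHom K' hrel' := by
    ext σ i j
    rfl
  refine ⟨hm, hK', inferInstance, hrel', inferInstance, hr', ?_⟩
  have e := baseChangeAlong_ofMat_isEquiv (φ : Pol 𝒪 ⧸ K →+* Pol 𝒪 ⧸ K') hφ (tautHom K hrel) hr
  rw [ofMat_congr hmap (hr.map _ hφ) hr'] at e
  exact h𝒟.of_isEquiv hP' e (h𝒟.baseChangeAlong hP hP' φ hφ hD)

/-- (h2) admissible ideals are closed under `⊓`. -/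
theorem Adm.inf (h𝒟 : IsDeformationCondition 𝒪 𝒟) {n : ℕ} {K₁ K₂ : Ideal (Pol 𝒪)}
    (hK₁ : Adm 𝒟 rt g0 g1 i0 n K₁) (hK₂ : Adm 𝒟 rt g0 g1 i0 n K₂) :
    Adm 𝒟 rt g0 g1 i0 n (K₁ ⊓ K₂) := by
  obtain ⟨h1, h2, hfin, hrel, hloc, hr, hD⟩ := hK₁
  obtain ⟨h1', h2', hfin', hrel', hloc', hr', hD'⟩ := hK₂
  haveI := hfin
  haveI := hloc
  haveI := hfin'
  haveI := hloc'
  have hpow : m0 rt ^ n ≤ K₁ ⊓ K₂ := le_inf h1 h1'
  have hle : K₁ ⊓ K₂ ≤ m0 rt := inf_le_left.trans h2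
  haveI : Finite (Pol 𝒪 ⧸ (K₁ ⊓ K₂)) :=
    Finite.of_injective _ (FibreSq.injective_pA_pB 𝒪 K₁ K₂)
  haveI : IsLocalRing (Pol 𝒪 ⧸ (K₁ ⊓ K₂)) := isLocalRing_quot hpow hle
  haveI : IsLocalRing (Pol 𝒪 ⧸ (K₁ ⊔ K₂)) :=
    isLocalRing_quot (h1.trans le_sup_left) (sup_le h2 h2')
  have hP₁ : IsArtinianTestAlgebra 𝒪 (Pol 𝒪 ⧸ K₁) := isArtinianTestAlgebra_quot h1 h2
  have hP₂ : IsArtinianTestAlgebra 𝒪 (Pol 𝒪 ⧸ K₂) := isArtinianTestAlgebra_quot h1' h2'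
  have hP : IsArtinianTestAlgebra 𝒪 (Pol 𝒪 ⧸ (K₁ ⊓ K₂)) := isArtinianTestAlgebra_quot hpow hle
  have hrel0 : Rel rt g0 g1 i0 (K₁ ⊓ K₂) := hrel.inf hrel'
  have hr0 : IsContMat (tautHom (K₁ ⊓ K₂) hrel0) := isContMat_tautHom hrel0
  refine ⟨hpow, hle, inferInstance, hrel0, inferInstance, hr0, ?_⟩
  have hmapA : mapMat ((FibreSq.pA 𝒪 K₁ K₂ : Pol 𝒪 ⧸ (K₁ ⊓ K₂) →ₐ[𝒪] Pol 𝒪 ⧸ K₁) :
      Pol 𝒪 ⧸ (K₁ ⊓ K₂) →+* Pol 𝒪 ⧸ K₁) (tautHom (K₁ ⊓ K₂) hrel0) = tautHom K₁ hrel := by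
    ext σ i j
    rfl
  have hmapB : mapMat ((FibreSq.pB 𝒪 K₁ K₂ : Pol 𝒪 ⧸ (K₁ ⊓ K₂) →ₐ[𝒪] Pol 𝒪 ⧸ K₂) :
      Pol 𝒪 ⧸ (K₁ ⊓ K₂) →+* Pol 𝒪 ⧸ K₂) (tautHom (K₁ ⊓ K₂) hrel0) = tautHom K₂ hrel' := by
    ext σ i j
    rfl
  have eA := baseChangeAlong_ofMat_isEquiv
    ((FibreSq.pA 𝒪 K₁ K₂ : Pol 𝒪 ⧸ (K₁ ⊓ K₂) →ₐ[𝒪] Pol 𝒪 ⧸ K₁) :
      Pol 𝒪 ⧸ (K₁ ⊓ K₂) →+* Pol 𝒪 ⧸ K₁) (FibreSq.isLocalHom_factorₐ inf_le_left)
    (tautHom (K₁ ⊓ K₂) hrel0) hr0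
  rw [ofMat_congr hmapA (hr0.map _ (FibreSq.isLocalHom_factorₐ inf_le_left)) hr] at eA
  have eB := baseChangeAlong_ofMat_isEquiv
    ((FibreSq.pB 𝒪 K₁ K₂ : Pol 𝒪 ⧸ (K₁ ⊓ K₂) →ₐ[𝒪] Pol 𝒪 ⧸ K₂) :
      Pol 𝒪 ⧸ (K₁ ⊓ K₂) →+* Pol 𝒪 ⧸ K₂) (FibreSq.isLocalHom_factorₐ inf_le_right)
    (tautHom (K₁ ⊓ K₂) hrel0) hr0
  rw [ofMat_congr hmapB (hr0.map _ (FibreSq.isLocalHom_factorₐ inf_le_right)) hr'] at eB
  exact FibreSq.of_inf h𝒟 hP₁ hP₂ (ofMat (tautHom (K₁ ⊓ K₂) hrel0) hr0)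
    (h𝒟.of_isEquiv hP₁ (isEquiv_symm eA) hD) (h𝒟.of_isEquiv hP₂ (isEquiv_symm eB) hD')

end Ker

section Bound

variable [IsNoetherianRing 𝒪] [Finite (ResidueField 𝒪)]

/-- (h5) the index of admissible ideals of level `n` is bounded. -/
theorem adm_card_bound (ρbar : ResidualGaloisRep (ResidueField 𝒪))
    (h𝒟 : IsDeformationCondition 𝒪 𝒟) (hfin : TangentFinite 𝒪 ρbar 𝒟)
    (b0 : Module.Basis (Fin 2) (ResidueField 𝒪) ρbar.V)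
    (hrt : ∀ σ i j, residue 𝒪 (rt σ i j) = matOfBasisRes ρbar b0 σ i j)
    (hcomm : IsUnit ((rt g1 * rt g0 - rt g0 * rt g1) i0 0)) (n : ℕ) :
    ∃ B : ℕ, ∀ K, Adm 𝒟 rt g0 g1 i0 n K → Nat.card (Pol 𝒪 ⧸ K) ≤ B := by
  obtain ⟨B, hB⟩ := TangentGlue.exists_card_bound_of_rigid 𝒪 ρbar 𝒟 h𝒟 hfin b0 rt hrt g0 g1 i0
    hcomm n
  refine ⟨B, fun K hK => ?_⟩
  obtain ⟨h1, h2, hfinK, hrel, hloc, hr, hD⟩ := hK
  haveI := hfinK
  haveI := hloc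
  exact hB (Pol 𝒪 ⧸ K)
    (TestAlg.isLocalHom_algebraMap_quot_of_pow_le 𝒪 (m0 rt) K n h1 h2 (hres0 rt))
    (TestAlg.residue_surjective_quot_of_pow_le 𝒪 (m0 rt) K n h1 h2 (hres0 rt))
    (tautHom K hrel) hr (maximalIdeal_quot_pow h1 h2) hD (tautHom_congr h1 h2 hrel)
    (tautHom_h00 K hrel) (tautHom_h10 K hrel) (tautHom_hβ K hrel) (adjoin_tautHom K hrel)

/-- (h6) `m0` is admissible of level `1`. -/
theorem adm_m0 (ρbar : ResidualGaloisRep (ResidueField 𝒪))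
    (h𝒟 : IsDeformationCondition 𝒪 𝒟)
    (hbar : 𝒟 (GaloisRepAdic.ofResidualGaloisRep ρbar))
    (b0 : Module.Basis (Fin 2) (ResidueField 𝒪) ρbar.V)
    (hrt : ∀ σ i j, residue 𝒪 (rt σ i j) = matOfBasisRes ρbar b0 σ i j)
    (h00 : rt g0 0 0 = 0) (h10 : rt g0 1 0 = 1) :
    Adm 𝒟 rt g0 g1 i0 1 (m0 rt) := by
  have hk : IsArtinianTestAlgebra 𝒪 (ResidueField 𝒪) :=
    FibreSq.isArtinianTestAlgebra_residueField 𝒪
  have hcont : IsContMat (matOfBasisRes ρbar b0) :=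
    isContMat_of_factors (factors_matOfBasisRes ρbar b0)
  have hD : 𝒟 (ofMat (matOfBasisRes ρbar b0) hcont) :=
    h𝒟.of_isEquiv hk (ofResidualGaloisRep_isEquiv_ofMat ρbar b0) hbar
  have hbot : maximalIdeal (ResidueField 𝒪) ^ 1 = ⊥ := by
    rw [pow_one]
    exact IsLocalRing.maximalIdeal_eq_bot
  have key := adm_ker (rt := rt) (g0 := g0) (g1 := g1) (i0 := i0) h𝒟 (ResidueField 𝒪) hk 1 hbot
    (matOfBasisRes ρbar b0) hcont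
    (fun σ i j => by
      rw [← hrt σ i j, IsLocalRing.ResidueField.algebraMap_eq, sub_self]
      exact Ideal.zero_mem _)
    (by rw [← hrt, h00, map_zero]) (by rw [← hrt, h10, map_one])
    (by rw [← hrt, IsLocalRing.ResidueField.algebraMap_eq]) hD
  have hev : (Universal.evalHom 𝒪 (⇑(matOfBasisRes ρbar b0)) : Pol 𝒪 →ₐ[𝒪] ResidueField 𝒪) =
      ev0 rt := by
    refine MvPolynomial.algHom_ext fun x => ?_
    obtain ⟨g, i, j⟩ := x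
    rw [Universal.evalHom_X, ev0_X, hrt]
  rw [hev] at key
  exact key

/-- the least admissible ideals `J n`, with all the properties needed for the limit ring. -/
theorem exists_levels (ρbar : ResidualGaloisRep (ResidueField 𝒪))
    (h𝒟 : IsDeformationCondition 𝒪 𝒟)
    (hbar : 𝒟 (GaloisRepAdic.ofResidualGaloisRep ρbar))
    (hfin : TangentFinite 𝒪 ρbar 𝒟)
    (b0 : Module.Basis (Fin 2) (ResidueField 𝒪) ρbar.V)
    (hrt : ∀ σ i j, residue 𝒪 (rt σ i j) = matOfBasisRes ρbar b0 σ i j)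
    (h00 : rt g0 0 0 = 0) (h10 : rt g0 1 0 = 1)
    (hcomm : IsUnit ((rt g1 * rt g0 - rt g0 * rt g1) i0 0)) :
    ∃ J : ℕ → Ideal (Pol 𝒪), J 0 = ⊤ ∧
      (∀ n, 1 ≤ n → Adm 𝒟 rt g0 g1 i0 n (J n) ∧ ∀ K, Adm 𝒟 rt g0 g1 i0 n K → J n ≤ K) ∧
      (∀ n, J (n + 1) ≤ J n) ∧ (∀ n, m0 rt ^ n ≤ J n) ∧ (∀ n, 1 ≤ n → J n ≤ m0 rt) ∧
      (∀ n, J n = J (n + 1) ⊔ m0 rt ^ n) ∧
      (∃ s : Finset (Pol 𝒪), (↑s : Set (Pol 𝒪)) ⊆ (m0 rt : Set (Pol 𝒪)) ∧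
        m0 rt ≤ Ideal.span (↑s : Set (Pol 𝒪)) ⊔ J 2) := by
  refine LeastAdm.exists_least_admissible (m0 rt) (Adm 𝒟 rt g0 g1 i0)
    (fun n K hK => ⟨hK.pow_le, hK.le, hK.finite⟩)
    (fun n K₁ K₂ hK₁ hK₂ => hK₁.inf h𝒟 hK₂)
    (fun n K hn hK => hK.mono h𝒟 le_sup_left le_sup_right
      (sup_le hK.le (Ideal.pow_le_self (Nat.one_le_iff_ne_zero.1 hn))))
    (fun n K hK => hK.succ)
    (fun n => adm_card_bound ρbar h𝒟 hfin b0 hrt hcomm n)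
    ⟨m0 rt, adm_m0 ρbar h𝒟 hbar b0 hrt h00 h10⟩

end Bound

end Fermat.Agent.S53.Int.Adm
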