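import Mathlib
import Fermat.Prelude.Def_GaloisRep_Adic

set_option autoImplicit false

namespace Fermat.Agent.S53.Int

open IsLocalRing Module

/-- The absolute Galois group of `ℚ`. -/
abbrev Gal : Type := AlgebraicClosure ℚ ≃ₐ[ℚ] AlgebraicClosure ℚ

/-- `2 × 2` matrices. -/
abbrev M2 (A : Type) : Type := Matrix (Fin 2) (Fin 2) A

section Basic

variable {A : Type} [CommRing A] [IsLocalRing A]

omit [IsLocalRing A] in
/-- Membership in `I • ⊤` is checked on coordinates. -/
theorem mem_smul_top_iff_repr' {N : Type} [AddCommGroup N] [Module A N]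
    (b : Basis (Fin 2) A N) (I : Ideal A) (x : N) :
    x ∈ I • (⊤ : Submodule A N) ↔ ∀ i, b.repr x i ∈ I := by
  rw [← b.span_eq, Submodule.mem_ideal_smul_span_iff_exists_sum]
  constructor
  · rintro ⟨a, ha, rfl⟩ i
    have : (a.sum fun i c => c • b i) = b.repr.symm a := by
      rw [Basis.repr_symm_apply, Finsupp.linearCombination_apply]
    rw [this, LinearEquiv.apply_symm_apply]
    exact ha i
  · intro h
    refine ⟨b.repr x, h, ?_⟩
    have := b.linearCombination_repr x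
    rwa [Finsupp.linearCombination_apply] at this

/-- Adic continuity of a matrix-valued homomorphism. -/
def IsContMat (r : Gal →* M2 A) : Prop :=
  ∀ n : ℕ, ∃ L : IntermediateField ℚ (AlgebraicClosure ℚ), FiniteDimensional ℚ L ∧
    ∀ σ : Gal, (∀ x ∈ L, σ x = x) → ∀ i j, (r σ - 1) i j ∈ maximalIdeal A ^ n

/-- The matrix family of a representation in a basis. -/
noncomputable def matOf (ρ : GaloisRepAdic A) (b : Basis (Fin 2) A ρ.V) : Gal →* M2 A where
  toFun σ := LinearMap.toMatrix b b (ρ.ρ σ)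
  map_one' := by rw [map_one]; exact LinearMap.toMatrix_one b
  map_mul' σ τ := by rw [map_mul]; exact LinearMap.toMatrix_mul b _ _

@[simp] theorem matOf_apply (ρ : GaloisRepAdic A) (b : Basis (Fin 2) A ρ.V) (σ : Gal) :
    matOf ρ b σ = LinearMap.toMatrix b b (ρ.ρ σ) := rfl

theorem isContMat_matOf (ρ : GaloisRepAdic A) (b : Basis (Fin 2) A ρ.V) :
    IsContMat (matOf ρ b) := by
  intro n
  obtain ⟨L, hL, h⟩ := ρ.isAdicContinuous n
  refine ⟨L, hL, fun σ hσ i j => ?_⟩
  have h1 := h σ hσ (b j)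
  rw [mem_smul_top_iff_repr' b] at h1
  have h2 := h1 i
  have : (matOf ρ b σ - 1) i j = b.repr (ρ.ρ σ (b j) - b j) i := by
    rw [Matrix.sub_apply, matOf_apply, LinearMap.toMatrix_apply, map_sub, Finsupp.sub_apply,
      Basis.repr_self, Matrix.one_apply, Finsupp.single_apply]
    congr 2
    exact propext eq_comm
  rw [this]
  exact h2

/-- The representation on `A²` attached to a continuous matrix-valued homomorphism. -/
noncomputable def ofMat (r : Gal →* M2 A) (hr : IsContMat r) : GaloisRepAdic A where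
  V := Fin 2 → A
  finrank_eq := by simp
  ρ := (MonoidHomClass.toMonoidHom (Matrix.toLinAlgEquiv' (R := A) (n := Fin 2))).comp r
  isAdicContinuous := by
    intro n
    obtain ⟨L, hL, h⟩ := hr n
    refine ⟨L, hL, fun σ hσ v => ?_⟩
    rw [mem_smul_top_iff_repr' (Pi.basisFun A (Fin 2))]
    intro i
    have h1 := h σ hσ
    show (Matrix.toLinAlgEquiv' (r σ) v - v) i ∈ _
    have : (Matrix.toLinAlgEquiv' (r σ) v - v) i = ∑ j, (r σ - 1) i j * v j := by
      rw [Pi.sub_apply, Matrix.toLinAlgEquiv'_apply, Matrix.mulVec, dotProduct]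
      simp only [Matrix.sub_apply, sub_mul, Finset.sum_sub_distrib, Matrix.one_apply,
        ite_mul, one_mul, zero_mul, Finset.sum_ite_eq, Finset.mem_univ, if_true]
    rw [this]
    exact Ideal.sum_mem _ fun j _ => Ideal.mul_mem_right _ _ (h1 i j)

theorem ofMat_ρ_apply (r : Gal →* M2 A) (hr : IsContMat r) (σ : Gal) :
    (ofMat r hr).ρ σ = Matrix.toLinAlgEquiv' (r σ) := rfl

/-- The standard basis of the space of `ofMat`. -/
noncomputable def stdBasis (r : Gal →* M2 A) (hr : IsContMat r) :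
    Basis (Fin 2) A (ofMat r hr).V := Pi.basisFun A (Fin 2)

theorem matOf_ofMat (r : Gal →* M2 A) (hr : IsContMat r) :
    matOf (ofMat r hr) (stdBasis r hr) = r := by
  ext σ : 1
  rw [matOf_apply, ofMat_ρ_apply]
  exact LinearMap.toMatrix'_toLin' (r σ)

end Basic

section Equivs

variable {A : Type} [CommRing A] [IsLocalRing A]

/-- Two representations whose matrix families are conjugate are equivalent. -/
theorem isEquiv_of_conj (ρ₁ ρ₂ : GaloisRepAdic A) (b₁ : Basis (Fin 2) A ρ₁.V)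
    (b₂ : Basis (Fin 2) A ρ₂.V) (N N' : M2 A) (h : N * N' = 1)
    (hN : ∀ σ, N * matOf ρ₁ b₁ σ = matOf ρ₂ b₂ σ * N) : ρ₁.IsEquiv ρ₂ := by
  have h' : N' * N = 1 := mul_eq_one_comm.mp h
  let e : ρ₁.V ≃ₗ[A] ρ₂.V := LinearEquiv.ofLinearMap (Matrix.toLin b₁ b₂ N) (Matrix.toLin b₂ b₁ N')
    (by rw [← Matrix.toLin_mul, h, Matrix.toLin_one])
    (by rw [← Matrix.toLin_mul, h', Matrix.toLin_one])
  refine ⟨⟨e, fun σ x => ?_⟩⟩
  have h1 : (Matrix.toLin b₁ b₂ N) ∘ₗ (ρ₁.ρ σ) = (ρ₂.ρ σ) ∘ₗ (Matrix.toLin b₁ b₂ N) := by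
    have e1 : ρ₁.ρ σ = Matrix.toLin b₁ b₁ (matOf ρ₁ b₁ σ) := by
      rw [matOf_apply, Matrix.toLin_toMatrix]
    have e2 : ρ₂.ρ σ = Matrix.toLin b₂ b₂ (matOf ρ₂ b₂ σ) := by
      rw [matOf_apply, Matrix.toLin_toMatrix]
    rw [e1, e2, ← Matrix.toLin_mul, ← Matrix.toLin_mul, hN σ]
  exact congrArg (fun f => f x) h1

/-- Equal matrix families give equivalent representations. -/
theorem isEquiv_of_matOf_eq (ρ₁ ρ₂ : GaloisRepAdic A) (b₁ : Basis (Fin 2) A ρ₁.V)
    (b₂ : Basis (Fin 2) A ρ₂.V) (h : ∀ σ, matOf ρ₁ b₁ σ = matOf ρ₂ b₂ σ) : ρ₁.IsEquiv ρ₂ :=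
  isEquiv_of_conj ρ₁ ρ₂ b₁ b₂ 1 1 (one_mul 1) fun σ => by rw [one_mul, mul_one, h σ]

/-- Equivalent representations have conjugate matrix families. -/
theorem exists_conj_of_isEquiv (ρ₁ ρ₂ : GaloisRepAdic A) (b₁ : Basis (Fin 2) A ρ₁.V)
    (b₂ : Basis (Fin 2) A ρ₂.V) (h : ρ₁.IsEquiv ρ₂) :
    ∃ N N' : M2 A, N * N' = 1 ∧ ∀ σ, N * matOf ρ₁ b₁ σ = matOf ρ₂ b₂ σ * N := by
  obtain ⟨e⟩ := h
  refine ⟨LinearMap.toMatrix b₁ b₂ e.toLinearEquiv.toLinearMap,
    LinearMap.toMatrix b₂ b₁ e.toLinearEquiv.symm.toLinearMap, ?_, fun σ => ?_⟩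
  · rw [← LinearMap.toMatrix_comp b₂ b₁ b₂]
    have : e.toLinearEquiv.toLinearMap ∘ₗ e.toLinearEquiv.symm.toLinearMap = LinearMap.id := by
      ext x; simp
    rw [this, LinearMap.toMatrix_id]
  · rw [matOf_apply, matOf_apply, ← LinearMap.toMatrix_comp b₁ b₁ b₂,
      ← LinearMap.toMatrix_comp b₁ b₂ b₂]
    congr 1
    ext x
    exact e.map_apply σ x

/-- The base-changed basis. -/
noncomputable def bcBasis {B : Type} [CommRing B] [IsLocalRing B] (φ : A →+* B)
    (hφ : IsLocalHom φ) (ρ : GaloisRepAdic A) (b : Basis (Fin 2) A ρ.V) :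
    Basis (Fin 2) B (ρ.baseChangeAlong φ hφ).V :=
  letI : Algebra A B := φ.toAlgebra
  Algebra.TensorProduct.basis B b

theorem matOf_bcBasis {B : Type} [CommRing B] [IsLocalRing B] (φ : A →+* B)
    (hφ : IsLocalHom φ) (ρ : GaloisRepAdic A) (b : Basis (Fin 2) A ρ.V) (σ : Gal) :
    matOf (ρ.baseChangeAlong φ hφ) (bcBasis φ hφ ρ b) σ = (matOf ρ b σ).map φ := by
  let _ : Algebra A B := φ.toAlgebra
  exact LinearMap.toMatrix_baseChange B (ρ.ρ σ) b b

/-- The basis of the residual representation induced by a basis. -/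
noncomputable def resBasis (ρ : GaloisRepAdic A) (b : Basis (Fin 2) A ρ.V) :
    Basis (Fin 2) (ResidueField A) ρ.residual.V :=
  Algebra.TensorProduct.basis (ResidueField A) b

theorem toMatrix_resBasis (ρ : GaloisRepAdic A) (b : Basis (Fin 2) A ρ.V) (σ : Gal) :
    LinearMap.toMatrix (resBasis ρ b) (resBasis ρ b) (ρ.residual.ρ σ) =
      (matOf ρ b σ).map (IsLocalRing.residue A) :=
  LinearMap.toMatrix_baseChange (ResidueField A) (ρ.ρ σ) b b

/-- Nakayama: every basis of `k ⊗ V` lifts to a basis of `V`. -/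
theorem exists_basis_lift' (ρ : GaloisRepAdic A)
    (c' : Basis (Fin 2) (ResidueField A) (TensorProduct A (ResidueField A) ρ.V)) :
    ∃ c : Basis (Fin 2) A ρ.V, Algebra.TensorProduct.basis (ResidueField A) c = c' := by
  have hsurj : Function.Surjective (TensorProduct.mk A (ResidueField A) ρ.V 1) :=
    TensorProduct.mk_surjective A ρ.V (ResidueField A) Ideal.Quotient.mk_surjective
  choose v hv using fun i => hsurj (c' i)
  have hcomp : (TensorProduct.mk A (ResidueField A) ρ.V 1) ∘ v = c' := funext hv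
  have hbij : Function.Bijective
      (Finsupp.linearCombination (ResidueField A)
        ((TensorProduct.mk A (ResidueField A) ρ.V 1) ∘ v)) := by
    rw [hcomp]
    refine ⟨c'.linearIndependent, ?_⟩
    rw [← LinearMap.range_eq_top, Finsupp.range_linearCombination, c'.span_eq]
  have hb := IsLocalRing.linearCombination_bijective_of_flat (R := A) (M := ρ.V) v hbij
  have hli : LinearIndependent A v := hb.1
  have hsp : ⊤ ≤ Submodule.span A (Set.range v) := by
    rw [← Finsupp.range_linearCombination, LinearMap.range_eq_top.mpr hb.2]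
  refine ⟨Basis.mk hli hsp, ?_⟩
  apply Basis.eq_of_apply_eq
  intro i
  rw [Algebra.TensorProduct.basis_apply, Basis.mk_apply]
  exact hv i

/-- Nakayama: every basis of the residual representation lifts. -/
theorem exists_basis_lift (ρ : GaloisRepAdic A)
    (c' : Basis (Fin 2) (ResidueField A) ρ.residual.V) :
    ∃ c : Basis (Fin 2) A ρ.V, resBasis ρ c = c' :=
  exists_basis_lift' ρ c'

end Equivs

section Residual

variable {k : Type} [Field k]

/-- Equal matrices give equivalent residual representations. -/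
theorem residual_isEquiv_of_toMatrix_eq (ρ₁ ρ₂ : ResidualGaloisRep k)
    (b₁ : Basis (Fin 2) k ρ₁.V) (b₂ : Basis (Fin 2) k ρ₂.V)
    (h : ∀ σ, LinearMap.toMatrix b₁ b₁ (ρ₁.ρ σ) = LinearMap.toMatrix b₂ b₂ (ρ₂.ρ σ)) :
    ρ₁.IsEquiv ρ₂ := by
  refine ⟨⟨b₁.equiv b₂ (Equiv.refl _), fun σ x => ?_⟩⟩
  have h1 : (b₁.equiv b₂ (Equiv.refl _)).toLinearMap ∘ₗ (ρ₁.ρ σ) =
      (ρ₂.ρ σ) ∘ₗ (b₁.equiv b₂ (Equiv.refl _)).toLinearMap := by
    apply b₁.ext
    intro j
    have e1 := LinearMap.toMatrix_mulVec_repr b₁ b₁ (ρ₁.ρ σ) (b₁ j)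
    have e2 := LinearMap.toMatrix_mulVec_repr b₂ b₂ (ρ₂.ρ σ) (b₂ j)
    apply b₂.repr.injective
    ext i
    simp only [LinearMap.coe_comp, LinearEquiv.coe_coe, Function.comp_apply, Basis.equiv_apply,
      Equiv.refl_apply]
    have e3 : b₂.repr ((b₁.equiv b₂ (Equiv.refl _)) (ρ₁.ρ σ (b₁ j))) i =
        b₁.repr (ρ₁.ρ σ (b₁ j)) i := by
      have : ∀ x, b₂.repr ((b₁.equiv b₂ (Equiv.refl _)) x) = b₁.repr x := by
        intro x
        apply Finsupp.ext
        intro i
        simp [Basis.equiv]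
      rw [this]
    rw [e3, ← congrFun e1 i, ← congrFun e2 i, h σ]
    simp [Matrix.mulVec, dotProduct, Basis.repr_self, Finsupp.single_apply]
  exact congrArg (fun f => f x) h1

/-- The base-changed basis of a residual representation. -/
noncomputable def rbcBasis {k' : Type} [Field k'] (ψ : k →+* k') (ρbar : ResidualGaloisRep k)
    (b : Basis (Fin 2) k ρbar.V) : Basis (Fin 2) k' (ρbar.baseChangeAlong ψ).V :=
  letI : Algebra k k' := ψ.toAlgebra
  Algebra.TensorProduct.basis k' b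

theorem toMatrix_rbcBasis {k' : Type} [Field k'] (ψ : k →+* k') (ρbar : ResidualGaloisRep k)
    (b : Basis (Fin 2) k ρbar.V) (σ : Gal) :
    LinearMap.toMatrix (rbcBasis ψ ρbar b) (rbcBasis ψ ρbar b) ((ρbar.baseChangeAlong ψ).ρ σ) =
      (LinearMap.toMatrix b b (ρbar.ρ σ)).map ψ := by
  let _ : Algebra k k' := ψ.toAlgebra
  exact LinearMap.toMatrix_baseChange k' (ρbar.ρ σ) b b

end Residual

section Main

variable {A : Type} [CommRing A] [IsLocalRing A] {k : Type} [Field k]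

/-- From a residual equivalence, a basis in which the matrices reduce to those of `ρbar`. -/
theorem exists_basis_of_residual_isEquiv (ρ : GaloisRepAdic A) (ρbar : ResidualGaloisRep k)
    (ψ : k →+* ResidueField A) (b : Basis (Fin 2) k ρbar.V)
    (h : ρ.residual.IsEquiv (ρbar.baseChangeAlong ψ)) :
    ∃ c : Basis (Fin 2) A ρ.V, ∀ σ,
      (matOf ρ c σ).map (IsLocalRing.residue A) = (LinearMap.toMatrix b b (ρbar.ρ σ)).map ψ := by
  obtain ⟨e⟩ := h
  let d := rbcBasis ψ ρbar b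
  let c' : Basis (Fin 2) (ResidueField A) ρ.residual.V := d.map e.toLinearEquiv.symm
  obtain ⟨c, hc⟩ := exists_basis_lift ρ c'
  refine ⟨c, fun σ => ?_⟩
  rw [← toMatrix_resBasis, hc, ← toMatrix_rbcBasis]
  ext i j
  rw [LinearMap.toMatrix_apply, LinearMap.toMatrix_apply]
  show (d.map e.toLinearEquiv.symm).repr (ρ.residual.ρ σ ((d.map e.toLinearEquiv.symm) j)) i = _
  rw [Basis.map_repr, Basis.map_apply, LinearEquiv.trans_apply, LinearEquiv.symm_symm,
    e.map_apply, LinearEquiv.apply_symm_apply]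

/-- Conversely, matrices reducing to those of `ρbar` give a residual equivalence. -/
theorem residual_isEquiv_of_basis (ρ : GaloisRepAdic A) (ρbar : ResidualGaloisRep k)
    (ψ : k →+* ResidueField A) (b : Basis (Fin 2) k ρbar.V) (c : Basis (Fin 2) A ρ.V)
    (h : ∀ σ, (matOf ρ c σ).map (IsLocalRing.residue A) =
      (LinearMap.toMatrix b b (ρbar.ρ σ)).map ψ) :
    ρ.residual.IsEquiv (ρbar.baseChangeAlong ψ) :=
  residual_isEquiv_of_toMatrix_eq _ _ (resBasis ρ c) (rbcBasis ψ ρbar b) fun σ => by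
    rw [toMatrix_resBasis, toMatrix_rbcBasis, h σ]

/-- Push a matrix family forward along a ring homomorphism. -/
noncomputable def mapMat {B : Type} [CommRing B] (φ : A →+* B) (r : Gal →* M2 A) : Gal →* M2 B :=
  (MonoidHomClass.toMonoidHom (φ.mapMatrix (m := Fin 2))).comp r

omit [IsLocalRing A] in
@[simp] theorem mapMat_apply {B : Type} [CommRing B] (φ : A →+* B) (r : Gal →* M2 A) (σ : Gal) :
    mapMat φ r σ = (r σ).map φ := rfl

theorem isContMat_mapMat {B : Type} [CommRing B] [IsLocalRing B] (φ : A →+* B)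
    (hφ : IsLocalHom φ) {r : Gal →* M2 A} (hr : IsContMat r) : IsContMat (mapMat φ r) := by
  intro n
  obtain ⟨L, hL, h⟩ := hr n
  refine ⟨L, hL, fun σ hσ i j => ?_⟩
  have hmap : (maximalIdeal A ^ n).map φ ≤ maximalIdeal B ^ n := by
    rw [Ideal.map_pow]
    exact Ideal.pow_right_mono (Ideal.map_le_iff_le_comap.mpr fun a ha =>
      Ideal.mem_comap.mpr (haveI := hφ; map_nonunit φ a ha)) n
  have : (mapMat φ r σ - 1) i j = φ ((r σ - 1) i j) := by
    rw [Matrix.sub_apply, mapMat_apply, Matrix.map_apply, Matrix.sub_apply, map_sub,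
      Matrix.one_apply, Matrix.one_apply]
    split_ifs <;> simp
  rw [this]
  exact hmap (Ideal.mem_map_of_mem φ (h σ hσ i j))

/-- Base change of `ofMat` is `ofMat` of the pushed-forward family. -/
theorem baseChangeAlong_ofMat_isEquiv {B : Type} [CommRing B] [IsLocalRing B] (φ : A →+* B)
    (hφ : IsLocalHom φ) (r : Gal →* M2 A) (hr : IsContMat r) :
    ((ofMat r hr).baseChangeAlong φ hφ).IsEquiv (ofMat (mapMat φ r) (isContMat_mapMat φ hφ hr)) :=
  isEquiv_of_matOf_eq _ _ (bcBasis φ hφ _ (stdBasis r hr)) (stdBasis _ _) fun σ => by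
    rw [matOf_bcBasis, matOf_ofMat, matOf_ofMat, mapMat_apply]

/-- Every representation is `ofMat` of its matrix family. -/
theorem isEquiv_ofMat_matOf (ρ : GaloisRepAdic A) (c : Basis (Fin 2) A ρ.V) :
    ρ.IsEquiv (ofMat (matOf ρ c) (isContMat_matOf ρ c)) :=
  isEquiv_of_matOf_eq _ _ c (stdBasis _ _) fun σ => by rw [matOf_ofMat]

/-- Equivalence of `ofMat`s is conjugacy. -/
theorem ofMat_isEquiv_iff (r r' : Gal →* M2 A) (hr : IsContMat r) (hr' : IsContMat r') :
    (ofMat r hr).IsEquiv (ofMat r' hr') ↔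
      ∃ N N' : M2 A, N * N' = 1 ∧ ∀ σ, N * r σ = r' σ * N := by
  constructor
  · intro h
    obtain ⟨N, N', hNN', hN⟩ := exists_conj_of_isEquiv _ _ (stdBasis r hr) (stdBasis r' hr') h
    refine ⟨N, N', hNN', fun σ => ?_⟩
    have := hN σ
    rwa [matOf_ofMat, matOf_ofMat] at this
  · rintro ⟨N, N', hNN', hN⟩
    refine isEquiv_of_conj _ _ (stdBasis r hr) (stdBasis r' hr') N N' hNN' fun σ => ?_
    rw [matOf_ofMat, matOf_ofMat]
    exact hN σ

/-- The residual representation of `ofMat`. -/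
theorem residual_ofMat_isEquiv (r : Gal →* M2 A) (hr : IsContMat r) (ρbar : ResidualGaloisRep k)
    (ψ : k →+* ResidueField A) (b : Basis (Fin 2) k ρbar.V)
    (h : ∀ σ, (r σ).map (IsLocalRing.residue A) = (LinearMap.toMatrix b b (ρbar.ρ σ)).map ψ) :
    (ofMat r hr).residual.IsEquiv (ρbar.baseChangeAlong ψ) :=
  residual_isEquiv_of_basis _ ρbar ψ b (stdBasis r hr) fun σ => by rw [matOf_ofMat]; exact h σ

end Main

end Fermat.Agent.S53.Int
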