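import Mathlib
import Fermat.Prelude.Def_GaloisRep_DeformationRingData
import Fermat.Prelude.Def_GaloisRep_DeformationCondition
import Fermat.Agent.S53.Assemble
import Fermat.Agent.S53.CompleteLimit
import Fermat.Agent.S53.Frame
import Fermat.Agent.S53.Int.Adm

set_option autoImplicit false
set_option linter.style.haveILetI false
set_option linter.unusedSectionVars false

/-!
# Existence of the universal deformation ring: final wiring

framing (`Frame.exists_framing`) + least admissible ideals (`Adm.exists_levels`) +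
limit ring (`CompleteLimit.exists_complete_noetherian_limit`) +
assembly (`Assemble.nonempty_deformationRingData`).
-/

namespace Fermat.Agent.S53.Int.Final

open IsLocalRing GaloisRep MvPolynomial
open Fermat.Agent.S53 Fermat.Agent.S53.MatRep Fermat.Agent.S53.Int.Adm

local notation "Γℚ" => (AlgebraicClosure ℚ ≃ₐ[ℚ] AlgebraicClosure ℚ)

section Lift

variable {𝒪 : Type} [CommRing 𝒪] [IsLocalRing 𝒪]

/-- a set-theoretic section of the residue map with `0 ↦ 0`, `1 ↦ 1`. -/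
noncomputable def liftRes (x : ResidueField 𝒪) : 𝒪 :=
  open Classical in
  if x = 0 then 0 else if x = 1 then 1 else Function.surjInv IsLocalRing.residue_surjective x

theorem residue_liftRes (x : ResidueField 𝒪) : residue 𝒪 (liftRes x) = x := by
  unfold liftRes
  split_ifs with h0 h1
  · rw [map_zero, h0]
  · rw [map_one, h1]
  · exact Function.surjInv_eq IsLocalRing.residue_surjective x

theorem liftRes_zero : liftRes (0 : ResidueField 𝒪) = 0 := by
  unfold liftRes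
  rw [if_pos rfl]

theorem liftRes_one : liftRes (1 : ResidueField 𝒪) = 1 := by
  unfold liftRes
  rw [if_neg one_ne_zero, if_pos rfl]

/-- framing data in the form needed by the assembly. -/
theorem exists_frame (ρbar : ResidualGaloisRep (ResidueField 𝒪))
    (habs : ρbar.IsAbsolutelyIrreducible) :
    ∃ (b : Module.Basis (Fin 2) (ResidueField 𝒪) ρbar.V)
      (rt : Γℚ → Matrix (Fin 2) (Fin 2) 𝒪) (g0 g1 : Γℚ) (i0 : Fin 2),
      (∀ σ i j, residue 𝒪 (rt σ i j) = matOfBasisRes ρbar b σ i j) ∧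
      rt g0 0 0 = 0 ∧ rt g0 1 0 = 1 ∧
      IsUnit ((rt g1 * rt g0 - rt g0 * rt g1) i0 0) := by
  obtain ⟨b, g0, g1, i0, h00, h10, hc⟩ := Frame.exists_framing ρbar habs
  let rt : Γℚ → Matrix (Fin 2) (Fin 2) 𝒪 := fun σ =>
    Matrix.of fun i j => liftRes (LinearMap.toMatrix b b (ρbar.ρ σ) i j)
  have hrt : ∀ σ i j, residue 𝒪 (rt σ i j) = LinearMap.toMatrix b b (ρbar.ρ σ) i j :=
    fun σ i j => residue_liftRes _
  have hmap : ∀ σ, (rt σ).map (residue 𝒪) = LinearMap.toMatrix b b (ρbar.ρ σ) := by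
    intro σ
    ext i j
    rw [Matrix.map_apply, hrt]
  refine ⟨b, rt, g0, g1, i0, hrt, ?_, ?_, ?_⟩
  · show liftRes (LinearMap.toMatrix b b (ρbar.ρ g0) 0 0) = 0
    rw [h00, liftRes_zero]
  · show liftRes (LinearMap.toMatrix b b (ρbar.ρ g0) 1 0) = 1
    rw [h10, liftRes_one]
  · rw [← IsLocalRing.residue_ne_zero_iff_isUnit]
    have h1 : residue 𝒪 ((rt g1 * rt g0 - rt g0 * rt g1) i0 0) =
        (LinearMap.toMatrix b b (ρbar.ρ g1) * LinearMap.toMatrix b b (ρbar.ρ g0)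
          - LinearMap.toMatrix b b (ρbar.ρ g0) * LinearMap.toMatrix b b (ρbar.ρ g1)) i0 0 := by
      simp only [Matrix.sub_apply, Matrix.mul_apply, Fin.sum_univ_two, map_sub, map_add, map_mul,
        hrt]
    rw [h1]
    exact hc

end Lift

/-- the frozen statement, from the chain framing → admissible ideals → limit ring → assembly. -/
theorem nonempty_deformationRingData
    (𝒪 : Type) [CommRing 𝒪] [IsDomain 𝒪] [IsDiscreteValuationRing 𝒪]
    [IsAdicComplete (IsLocalRing.maximalIdeal 𝒪) 𝒪] [Finite (IsLocalRing.ResidueField 𝒪)]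
    (ρbar : ResidualGaloisRep (IsLocalRing.ResidueField 𝒪))
    (𝒟 : ∀ ⦃A : Type⦄ [CommRing A] [IsLocalRing A] [Algebra 𝒪 A], GaloisRepAdic A → Prop)
    (habs : ρbar.IsAbsolutelyIrreducible)
    (h𝒟 : GaloisRep.IsDeformationCondition 𝒪 𝒟)
    (hbar : 𝒟 (GaloisRepAdic.ofResidualGaloisRep ρbar))
    (hfin : GaloisRep.TangentFinite 𝒪 ρbar 𝒟) :
    Nonempty (GaloisRep.DeformationRingData 𝒪 ρbar 𝒟) := by
  obtain ⟨b, rt, g0, g1, i0, hrt, hrt0, hrt1, hcomm⟩ := exists_frame (𝒪 := 𝒪) ρbar habs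
  obtain ⟨J, -, hJ, hanti, hpow, hle, hstep, hfg⟩ :=
    exists_levels (𝒟 := 𝒟) (rt := rt) (g0 := g0) (g1 := g1) (i0 := i0) ρbar h𝒟 hbar hfin b hrt
      hrt0 hrt1 hcomm
  obtain ⟨R, iR1, iR2, iR3, iR4, iR5, ι, hlocR, hresR, hcomap, hdense⟩ :=
    CompleteLimit.exists_complete_noetherian_limit 𝒪 (Pol 𝒪) (m0 rt) J (m0_isMaximal rt)
      (hres0 rt) hanti hpow hle hstep hfg
  haveI := hlocR
  have hJa : Assemble.LevelA 𝒪 𝒟 rt g0 g1 i0 J := by
    intro n hn
    obtain ⟨hloc, r, hr, -, htest, hbot, htaut, hcongr, h00, h10, hβ, hD⟩ := (hJ n hn).1.data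
    refine ⟨Pol 𝒪 ⧸ J n, inferInstance, hloc, inferInstance, Ideal.Quotient.mkₐ 𝒪 (J n), r,
      ⟨hr, hcongr, h00, h10, hβ⟩, htest, Ideal.Quotient.mkₐ_surjective 𝒪 (J n), ?_, hbot,
      fun g i j => (htaut g i j).symm, hD⟩
    ext p
    rw [RingHom.mem_ker, Ideal.Quotient.mkₐ_eq_mk, Ideal.Quotient.eq_zero_iff_mem]
  have hJb : Assemble.LevelB 𝒪 𝒟 rt g0 g1 i0 J := by
    intro n hn B _ _ _ hB hbot r hr hD
    have hadm := adm_ker (rt := rt) (g0 := g0) (g1 := g1) (i0 := i0) h𝒟 B hB n hbot r hr.cont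
      hr.cong hr.e00 hr.e10 hr.eβ hD
    exact (hJ n hn).2 _ hadm
  have hrt' : ∀ σ, (rt σ).map (residue 𝒪) = LinearMap.toMatrix b b (ρbar.ρ σ) := by
    intro σ
    ext i j
    rw [Matrix.map_apply, hrt]
    rfl
  exact Assemble.nonempty_deformationRingData 𝒪 ρbar 𝒟 habs h𝒟 b rt g0 g1 i0 hrt' hrt0 hrt1 hcomm
    R hresR ι J hcomap hdense hJa hJb

end Fermat.Agent.S53.Int.Final
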